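import Fermat.Agent.Lib.RR.Basic

/-!
# RR library, layer L3 (helper800): Riemann's theorem, hypothesis-explicit on layer L2

* `exists_riemann_bound_of`: Riemann's theorem `deg D - ℓ(D) ≤ γ`, from the pole bound of layer L2
  for one transcendental `x` with `[F : K(x)] < ∞`.
* `exists_degree_bound_of`: `ℓ(D) = deg D + 1 - g` for all divisors of large degree, from Riemann's
  inequality and one divisor attaining the bound.
-/

set_option autoImplicit false

noncomputable section

open AlgebraicCurve

namespace Fermat.Agent.Lib.RR.H800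

open Fermat.Agent.Lib.RR

variable {K F : Type*} [Field K] [Field F] [Algebra K F]

/-! ### The pole divisor -/

section PoleDiv

variable [FF1 K F]

open Classical in
/-- The pole divisor `(z)_∞` of a function. -/
def poleDiv (z : F) : Divisor K F :=
  if hz : z = 0 then 0
  else (divOf (K := K) z hz).mapRange (fun n => max (-n) 0) (by simp)

theorem poleDiv_apply (z : F) (v : Place K F) :
    poleDiv (K := K) z v = max (-v.ord z) 0 := by
  unfold poleDiv
  split_ifs with hz
  · subst hz; simp
  · simp [Finsupp.mapRange_apply, divOf_apply]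

theorem poleDiv_nonneg (z : F) : (0 : Divisor K F) ≤ poleDiv z := by
  rw [Finsupp.le_def]
  intro v
  rw [poleDiv_apply]
  simp

theorem neg_ord_le_poleDiv (z : F) (v : Place K F) : -v.ord z ≤ poleDiv (K := K) z v := by
  rw [poleDiv_apply]; exact le_max_left _ _

end PoleDiv

/-! ### Linear independence of `x ^ i * u j` -/

/-- If `x` is transcendental over `K` and the `u j` are linearly independent over `K(x)`, then the
`x ^ i * u j` are linearly independent over `K`. -/
theorem linearIndependent_pow_mul {x : F} (hx : Transcendental K x) {n : ℕ} (u : Fin n → F)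
    (hu : LinearIndependent (IntermediateField.adjoin K {x}) u) (l : ℕ) :
    LinearIndependent K (fun p : Fin (l + 1) × Fin n => x ^ (p.1 : ℕ) * u p.2) := by
  classical
  rw [Fintype.linearIndependent_iff]
  intro g hg
  -- the polynomials
  let P : Fin n → Polynomial K := fun j => ∑ i : Fin (l + 1), Polynomial.monomial (i : ℕ) (g (i, j))
  have hcoeff : ∀ (j : Fin n) (k : Fin (l + 1)), (P j).coeff (k : ℕ) = g (k, j) := by
    intro j k
    simp only [P, Polynomial.finsetSum_coeff, Polynomial.coeff_monomial]
    rw [Finset.sum_eq_single k]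
    · simp
    · intro i _ hik
      rw [if_neg]
      exact fun h => hik (Fin.ext h)
    · intro h; exact absurd (Finset.mem_univ k) h
  let q : Fin n → IntermediateField.adjoin K {x} := fun j =>
    Polynomial.aeval (IntermediateField.AdjoinSimple.gen K x) (P j)
  have hq : ∀ j, ((q j : IntermediateField.adjoin K {x}) : F) = Polynomial.aeval x (P j) := by
    intro j
    simp only [q]
    rw [← IntermediateField.AdjoinSimple.algebraMap_gen K x]
    rw [Polynomial.aeval_algebraMap_apply]
    rfl
  have hsum : ∑ j, q j • u j = 0 := by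
    rw [← hg, Fintype.sum_prod_type_right]
    refine Finset.sum_congr rfl fun j _ => ?_
    rw [IntermediateField.smul_def, hq j]
    simp only [P, map_sum, Polynomial.aeval_monomial, Finset.sum_mul, smul_eq_mul]
    refine Finset.sum_congr rfl fun i _ => ?_
    rw [Algebra.smul_def, mul_assoc]
  have hq0 := (Fintype.linearIndependent_iff.mp hu) q hsum
  rintro ⟨i, j⟩
  have hP0 : P j = 0 := by
    have h1 : Polynomial.aeval x (P j) = 0 := by rw [← hq j, hq0 j]; rfl
    by_contra hne
    exact hx ⟨P j, hne, h1⟩
  rw [← hcoeff j i, hP0, Polynomial.coeff_zero]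

/-! ### Riemann's theorem -/

section Main

variable [FF1 K F]

theorem degree_poleDiv_le (x : F) (n : ℤ)
    (hL2 : ∀ S : Finset (Place K F), (∀ v ∈ S, v.ord x < 0) → ∑ v ∈ S, -v.ord x ≤ n) :
    Divisor.degree (poleDiv (K := K) x) ≤ n := by
  rw [degree_eq_sum]
  have hsupp : ∀ v ∈ (poleDiv (K := K) x).support, v.ord x < 0 := by
    intro v hv
    rw [Finsupp.mem_support_iff, poleDiv_apply] at hv
    by_contra hcon
    exact hv (max_eq_right (by omega))
  refine le_trans (le_of_eq ?_) (hL2 _ hsupp)
  refine Finset.sum_congr rfl fun v hv => ?_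
  have := hsupp v hv
  rw [poleDiv_apply, deg_eq_one v, max_eq_left (by omega)]
  simp

theorem poleDiv_le_sum {n : ℕ} (u : Fin n → F) (j : Fin n) (v : Place K F) :
    poleDiv (K := K) (u j) v ≤ (∑ j, poleDiv (K := K) (u j)) v := by
  rw [Finsupp.finsetSum_apply]
  exact Finset.single_le_sum (f := fun j => poleDiv (K := K) (u j) v)
    (fun i _ => Finsupp.le_def.mp (poleDiv_nonneg (u i)) v) (Finset.mem_univ j)

theorem exists_bound_multiples (x : F) (hx : Transcendental K x)
    [FiniteDimensional (IntermediateField.adjoin K {x}) F]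
    (hL2 : ∀ S : Finset (Place K F), (∀ v ∈ S, v.ord x < 0) →
      ∑ v ∈ S, -v.ord x ≤ (Module.finrank (IntermediateField.adjoin K {x}) F : ℤ)) :
    ∃ γ : ℤ, ∀ l : ℕ,
      Divisor.degree (l • poleDiv (K := K) x) - ell (l • poleDiv (K := K) x) ≤ γ := by
  classical
  set n := Module.finrank (IntermediateField.adjoin K {x}) F with hn
  let b := Module.finBasis (IntermediateField.adjoin K {x}) F
  let u : Fin n → F := fun j => b j
  have hu : LinearIndependent (IntermediateField.adjoin K {x}) u := b.linearIndependent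
  have hu0 : ∀ j, u j ≠ 0 := fun j => b.ne_zero j
  have hx0 : x ≠ 0 := by
    rintro rfl
    exact hx (isAlgebraic_zero)
  set B : Divisor K F := poleDiv x with hB
  set C : Divisor K F := ∑ j, poleDiv (u j) with hC
  have hC0 : (0 : Divisor K F) ≤ C := Finset.sum_nonneg fun j _ => poleDiv_nonneg (u j)
  have hdegB : Divisor.degree B ≤ n := degree_poleDiv_le x n hL2
  refine ⟨Divisor.degree C - n, fun l => ?_⟩
  -- the family
  have hmem : ∀ p : Fin (l + 1) × Fin n,
      x ^ (p.1 : ℕ) * u p.2 ∈ riemannRochSpace (l • B + C) := by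
    rintro ⟨i, j⟩
    rw [mem_L_iff]
    intro v
    right
    rw [v.ord_mul (pow_ne_zero _ hx0) (hu0 j), ord_pow]
    have hval : (l • B + C) v = (l : ℤ) * B v + C v := by
      rw [Finsupp.add_apply, Finsupp.smul_apply, nsmul_eq_mul]
    rw [hval]
    have h1 : -B v ≤ v.ord x := by
      have := neg_ord_le_poleDiv (K := K) x v
      rw [hB]; omega
    have h2 : 0 ≤ B v := Finsupp.le_def.mp (poleDiv_nonneg x) v
    have h3 : -C v ≤ v.ord (u j) := by
      have h4 := neg_ord_le_poleDiv (K := K) (u j) v
      have h5 := poleDiv_le_sum (K := K) u j v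
      rw [hC]; omega
    have hi : ((i : ℕ) : ℤ) ≤ (l : ℤ) := by
      have := i.2
      exact_mod_cast Nat.lt_succ_iff.mp this
    have h6 : -((l : ℤ) * B v) ≤ ((i : ℕ) : ℤ) * v.ord x := by
      have h7 : ((i : ℕ) : ℤ) * (-B v) ≤ ((i : ℕ) : ℤ) * v.ord x :=
        mul_le_mul_of_nonneg_left h1 (by positivity)
      have h8 : ((i : ℕ) : ℤ) * B v ≤ (l : ℤ) * B v := mul_le_mul_of_nonneg_right hi h2
      linarith
    linarith
  have hli := linearIndependent_pow_mul hx u hu l
  have hli' : LinearIndependent K
      (fun p : Fin (l + 1) × Fin n =>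
        (⟨x ^ (p.1 : ℕ) * u p.2, hmem p⟩ : riemannRochSpace (l • B + C))) :=
    LinearIndependent.of_comp (riemannRochSpace (l • B + C)).subtype hli
  have hcard := hli'.fintype_card_le_finrank
  rw [Fintype.card_prod, Fintype.card_fin, Fintype.card_fin] at hcard
  have hcard' : ((l : ℤ) + 1) * n ≤ ell (l • B + C) := by
    have : ((l + 1) * n : ℕ) ≤ ell (l • B + C) := hcard
    exact_mod_cast this
  have hmono := degree_sub_ell_mono (D := l • B) (D' := l • B + C) (le_add_of_nonneg_right hC0)
  rw [map_add] at hmono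
  have hdeg : Divisor.degree (l • B) = (l : ℤ) * Divisor.degree B := by
    rw [map_nsmul]; simp
  have h9 : (l : ℤ) * Divisor.degree B ≤ (l : ℤ) * n :=
    mul_le_mul_of_nonneg_left hdegB (by positivity)
  rw [hdeg] at hmono ⊢
  linarith

/-- A transcendental function has a pole. -/
theorem exists_pole_of_transcendental {x : F} (hx : Transcendental K x) :
    ∃ v : Place K F, v.ord x < 0 := by
  by_contra hcon
  simp only [not_exists, not_lt] at hcon
  have hmem : x ∈ riemannRochSpace (0 : Divisor K F) := by
    rw [mem_L_iff]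
    intro v
    right
    simpa using hcon v
  rw [L_zero] at hmem
  obtain ⟨c, rfl⟩ := hmem
  exact hx (isAlgebraic_algebraMap c)

/-- The positive part of a divisor. -/
def divPosPart (A : Divisor K F) : Divisor K F := A.mapRange (fun n => max n 0) (by simp)

omit [FF1 K F] in
theorem divPosPart_apply (A : Divisor K F) (v : Place K F) : divPosPart A v = max (A v) 0 := by
  simp [divPosPart, Finsupp.mapRange_apply]

omit [FF1 K F] in
theorem le_divPosPart (A : Divisor K F) : A ≤ divPosPart A := by
  rw [Finsupp.le_def]; intro v; rw [divPosPart_apply]; exact le_max_left _ _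

omit [FF1 K F] in
theorem divPosPart_nonneg (A : Divisor K F) : 0 ≤ divPosPart A := by
  rw [Finsupp.le_def]; intro v; rw [divPosPart_apply]; exact le_max_right _ _

/-- The basic comparison: if `A - div z ≤ E` for some `z ≠ 0`, then
`deg A - ℓ(A) ≤ deg E - ℓ(E)`. -/
theorem degree_sub_ell_le_of_mem {A E : Divisor K F} {z : F} (hz : z ≠ 0)
    (h : ∀ v : Place K F, A v - v.ord z ≤ E v) :
    Divisor.degree A - ell A ≤ Divisor.degree E - ell E := by
  have hz' : z⁻¹ ≠ 0 := inv_ne_zero hz
  have hle : A + divOf (K := K) z⁻¹ hz' ≤ E := by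
    rw [Finsupp.le_def]
    intro v
    rw [Finsupp.add_apply, divOf_apply, v.ord_inv]
    have := h v
    omega
  have := degree_sub_ell_mono hle
  rw [ell_add_divOf, map_add, degree_divOf] at this
  simpa using this

/-- **Riemann's theorem**, from the pole bound of layer L2 for one transcendental `x` with
`[F : K(x)] < ∞`. -/
theorem exists_riemann_bound_of (x : F) (hx : Transcendental K x)
    [FiniteDimensional (IntermediateField.adjoin K {x}) F]
    (hL2 : ∀ S : Finset (Place K F), (∀ v ∈ S, v.ord x < 0) →
      ∑ v ∈ S, -v.ord x ≤ (Module.finrank (IntermediateField.adjoin K {x}) F : ℤ)) :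
    ∃ γ : ℤ, ∀ D : Divisor K F, Divisor.degree D - ell D ≤ γ := by
  classical
  obtain ⟨γ, hγ⟩ := exists_bound_multiples x hx hL2
  obtain ⟨v₀, hv₀⟩ := exists_pole_of_transcendental hx
  set B : Divisor K F := poleDiv x with hB
  have hB0 : (0 : Divisor K F) ≤ B := poleDiv_nonneg x
  have hdegB : 1 ≤ Divisor.degree B := by
    have hle : prim v₀ ≤ B := by
      rw [Finsupp.le_def]
      intro v
      by_cases hv : v = v₀
      · subst hv
        rw [prim_apply_self, hB, poleDiv_apply]
        exact le_max_of_le_left (by omega)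
      · rw [prim_apply_of_ne hv]
        exact Finsupp.le_def.mp hB0 v
    have := degree_mono hle
    rwa [degree_prim'] at this
  refine ⟨γ, fun A => ?_⟩
  set A' := divPosPart A with hA'
  set d := Divisor.degree A' with hd
  set l : ℕ := (γ + d + 1).toNat with hl
  have hl' : γ + d + 1 ≤ l := Int.self_le_toNat _
  have hdeglB : Divisor.degree (l • B) = (l : ℤ) * Divisor.degree B := by
    rw [map_nsmul]; simp
  have hlB : (l : ℤ) ≤ Divisor.degree (l • B) := by
    rw [hdeglB]
    have : (l : ℤ) * 1 ≤ (l : ℤ) * Divisor.degree B :=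
      mul_le_mul_of_nonneg_left hdegB (by positivity)
    linarith
  -- `ℓ(l B - A') > 0`
  have h1 := degree_sub_ell_mono (D := l • B - A') (D' := l • B)
    (sub_le_self _ (divPosPart_nonneg A))
  rw [map_sub] at h1
  have h2 := hγ l
  have hpos : 0 < ell (l • B - A') := by
    have : (0 : ℤ) < ell (l • B - A') := by linarith
    exact_mod_cast this
  obtain ⟨⟨z, hzmem⟩, hz0⟩ :=
    Module.finrank_pos_iff_exists_ne_zero.mp (show 0 < Module.finrank K
      (riemannRochSpace (l • B - A')) from hpos)
  have hz : z ≠ 0 := fun h => hz0 (Subtype.ext h)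
  have h3 := degree_sub_ell_le_of_mem (A := A) (E := l • B) hz (fun v => by
    have h4 := (mem_L_iff.mp hzmem v).resolve_left hz
    rw [Finsupp.sub_apply] at h4
    have h5 : A v ≤ A' v := Finsupp.le_def.mp (le_divPosPart A) v
    omega)
  linarith

/-- `ℓ(D) = deg D + 1 - g` for all divisors of large degree, from Riemann's inequality and one
divisor attaining the bound. -/
theorem exists_degree_bound_of (g : ℤ)
    (hineq : ∀ D : Divisor K F, Divisor.degree D + 1 - g ≤ ell D)
    (hex : ∃ D : Divisor K F, (ell D : ℤ) = Divisor.degree D + 1 - g) :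
    ∃ c : ℤ, ∀ D : Divisor K F, c ≤ Divisor.degree D →
      (ell D : ℤ) = Divisor.degree D + 1 - g := by
  obtain ⟨A₀, hA₀⟩ := hex
  refine ⟨Divisor.degree A₀ + g, fun A hA => ?_⟩
  have h1 := hineq (A - A₀)
  rw [map_sub] at h1
  have hpos : 0 < ell (A - A₀) := by
    have : (0 : ℤ) < ell (A - A₀) := by linarith
    exact_mod_cast this
  obtain ⟨⟨z, hzmem⟩, hz0⟩ :=
    Module.finrank_pos_iff_exists_ne_zero.mp (show 0 < Module.finrank K
      (riemannRochSpace (A - A₀)) from hpos)
  have hz : z ≠ 0 := fun h => hz0 (Subtype.ext h)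
  -- `A₀ - div z ≤ A`
  have h3 := degree_sub_ell_le_of_mem (A := A₀) (E := A) hz (fun v => by
    have h4 := (mem_L_iff.mp hzmem v).resolve_left hz
    rw [Finsupp.sub_apply] at h4
    omega)
  have h5 := hineq A
  linarith


/-- **Riemann's theorem**, from the statement of layer L2 (poles). -/
theorem exists_riemann_bound_of_L2
    (hL2 : ∀ (x : F) [FiniteDimensional (IntermediateField.adjoin K {x}) F]
      (S : Finset (Place K F)), (∀ v ∈ S, v.ord x < 0) →
      ∑ v ∈ S, -v.ord x ≤ (Module.finrank (IntermediateField.adjoin K {x}) F : ℤ)) :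
    ∃ γ : ℤ, ∀ D : Divisor K F, Divisor.degree D - ell D ≤ γ := by
  obtain ⟨x, hx, hfin⟩ := FF1.exists_finite (K := K) (F := F)
  exact exists_riemann_bound_of x hx (fun S hS => hL2 x S hS)

end Main

end Fermat.Agent.Lib.RR.H800
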